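import Mathlib
import Fermat.Agent.S29.H3.QuadRep

/-!
# Program A (S42 / S29), consumer side: the elementary two-dimensional lemma (D)

`κ` algebraically closed, `G` a group acting `κ`-linearly on `E`, `W₀ ≤ E` a nonzero
finite-dimensional stable subspace, `ε : G →* κˣ` a character.  If every `g` satisfies a quadratic
relation `g² - a g + ε(g) = 0` on `W₀`, then there is a two-dimensional representation `V` of `G`
with `charpoly (g | V) = X² - a X + ε(g)` for every such pair `(g, a)`, on which every `g` acting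
trivially on `W₀` with `ε g = 1` acts trivially.

Proof: take `W ≤ W₀` minimal stable, hence irreducible; by Burnside's theorem (Jacobson density
and Schur's lemma) the `ρ g` span `End W`.  With `g' := a(g) - g = ε(g) g⁻¹` one has
`(g h)' = h' g'`, i.e. `g h + h g = a(h) g + a(g) h + (a(g h) - a(g) a(h))`; by bilinearity
`X Y + Y X ∈ span (1, X, Y)` for all `X, Y ∈ End W`, which is impossible if `dim W ≥ 3`.
If `dim W = 2`, Cayley–Hamilton gives `tr = a` and `det = ε` (scalar `g` via a non-scalar `h`);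
if `dim W = 1` and `G` acts through `ψ`, take `V = ψ ⊕ ε ψ⁻¹`.
-/

set_option autoImplicit false

open Polynomial

namespace Fermat.Agent.S42.H14

section Burnside

variable {κ : Type*} [Field κ] [IsAlgClosed κ] {G : Type*} [Group G]
  {V : Type*} [AddCommGroup V] [Module κ V] [FiniteDimensional κ V]

/-- **Burnside's theorem**: an irreducible finite-dimensional representation over an
algebraically closed field spans the whole endomorphism algebra. -/
theorem burnside [Nontrivial V] (ρ : G →* Module.End κ V)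
    (hirr : ∀ U : Submodule κ V, (∀ g, ∀ u ∈ U, ρ g u ∈ U) → U = ⊥ ∨ U = ⊤) :
    Submodule.span κ (Set.range ρ) = ⊤ := by
  classical
  set A : Subalgebra κ (Module.End κ V) := Algebra.adjoin κ (Set.range ρ) with hA
  have hρA : ∀ g, ρ g ∈ A := fun g => Algebra.subset_adjoin ⟨g, rfl⟩
  haveI : IsSimpleModule A V := by
    rw [isSimpleModule_iff]
    refine { exists_pair_ne := ⟨⊥, ⊤, fun h => ?_⟩, eq_bot_or_eq_top := fun U => ?_ }
    · obtain ⟨v, hv⟩ := exists_ne (0 : V)
      have : v ∈ (⊥ : Submodule A V) := h ▸ Submodule.mem_top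
      exact hv ((Submodule.mem_bot A).1 this)
    · have h1 : ∀ g, ∀ u ∈ U.restrictScalars κ, ρ g u ∈ U.restrictScalars κ := by
        intro g u hu
        have : (⟨ρ g, hρA g⟩ : A) • u ∈ U := U.smul_mem _ hu
        exact this
      rcases hirr _ h1 with h | h
      · left; exact (Submodule.restrictScalars_eq_bot_iff κ A V).1 h
      · right; exact (Submodule.restrictScalars_eq_top_iff κ A V).1 h
  have hS := IsSimpleModule.algebraMap_end_bijective_of_isAlgClosed (A := A) (V := V) κ
  haveI : Module.Finite (Module.End A V) V := Module.Finite.of_restrictScalars_finite κ _ _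
  have hsurj := Module.Finite.toModuleEnd_moduleEnd_surjective (R := A) (M := V)
  have hAtop : ∀ f : Module.End κ V, f ∈ A := by
    intro f
    let f' : Module.End (Module.End A V) V :=
      { toFun := f
        map_add' := map_add f
        map_smul' := fun φ v => by
          obtain ⟨c, rfl⟩ := hS.2 φ
          simp [Module.algebraMap_end_apply] }
    obtain ⟨a, ha⟩ := hsurj f'
    have : (a : Module.End κ V) = f := by
      refine LinearMap.ext fun v => ?_
      have := congrArg (fun F : Module.End (Module.End A V) V => F v) ha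
      exact this
    exact this ▸ a.2
  rw [eq_top_iff]
  intro f _
  have h2 : f ∈ Subalgebra.toSubmodule A := hAtop f
  rw [hA, Algebra.adjoin_eq_span] at h2
  have h3 : Submonoid.closure (Set.range ρ) = MonoidHom.mrange ρ := by
    rw [← MonoidHom.coe_mrange, Submonoid.closure_eq]
  rw [h3, MonoidHom.coe_mrange] at h2
  exact h2

end Burnside

section Quadratic

variable {κ : Type*} [Field κ] {G : Type*} [Group G]
  {V : Type*} [AddCommGroup V] [Module κ V]

/-- The basic identity: `g h + h g = a(h) g + a(g) h + (a(g h) - a(g) a(h))`. -/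
theorem anticomm_of_quadratic (ρ : G →* Module.End κ V) (ε : G →* κˣ) (a : G → κ)
    (hq : ∀ g, ρ g * ρ g - a g • ρ g + (ε g : κ) • (1 : Module.End κ V) = 0) (g h : G) :
    ρ g * ρ h + ρ h * ρ g =
      a h • ρ g + a g • ρ h + (a (g * h) - a g * a h) • (1 : Module.End κ V) := by
  have hP : ∀ g, a g • (1 : Module.End κ V) - ρ g = (ε g : κ) • ρ g⁻¹ := by
    intro g
    have h1 : ρ g * (a g • (1 : Module.End κ V) - ρ g) = (ε g : κ) • (1 : Module.End κ V) := by
      have := hq g
      rw [mul_sub, mul_smul_comm, mul_one]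
      rw [sub_add_eq_add_sub, sub_eq_zero] at this
      rw [sub_eq_iff_eq_add, ← this, add_comm]
    have h2 : ρ g⁻¹ * ρ g = 1 := by rw [← map_mul, inv_mul_cancel, map_one]
    calc a g • (1 : Module.End κ V) - ρ g
        = ρ g⁻¹ * (ρ g * (a g • (1 : Module.End κ V) - ρ g)) := by
          rw [← mul_assoc, h2, one_mul]
      _ = (ε g : κ) • ρ g⁻¹ := by rw [h1, mul_smul_comm, mul_one]
  have h3 : a (g * h) • (1 : Module.End κ V) - ρ (g * h) =
      (a h • (1 : Module.End κ V) - ρ h) * (a g • (1 : Module.End κ V) - ρ g) := by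
    rw [hP, hP, hP, mul_inv_rev, map_mul, map_mul, smul_mul_smul_comm, Units.val_mul, mul_comm]
  rw [map_mul] at h3
  have h4 : (a h • (1 : Module.End κ V) - ρ h) * (a g • (1 : Module.End κ V) - ρ g) =
      (a h * a g) • (1 : Module.End κ V) - a h • ρ g - a g • ρ h + ρ h * ρ g := by
    simp only [sub_mul, mul_sub, smul_mul_assoc, mul_smul_comm, one_mul, mul_one]
    module
  rw [h4] at h3
  have h5 : ρ g * ρ h + ρ h * ρ g - (a h • ρ g + a g • ρ h +
      (a (g * h) - a g * a h) • (1 : Module.End κ V)) =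
      -(a (g * h) • (1 : Module.End κ V) - ρ g * ρ h -
        ((a h * a g) • (1 : Module.End κ V) - a h • ρ g - a g • ρ h + ρ h * ρ g)) := by
    module
  rw [← sub_eq_zero, h5, h3, sub_self, neg_zero]

/-- Bilinear extension: if the `ρ g` span `End V`, then `X Y + Y X ∈ span (1, X, Y)` for all
endomorphisms. -/
theorem anticomm_mem_span (ρ : G →* Module.End κ V) (ε : G →* κˣ) (a : G → κ)
    (hq : ∀ g, ρ g * ρ g - a g • ρ g + (ε g : κ) • (1 : Module.End κ V) = 0)
    (hspan : Submodule.span κ (Set.range ρ) = ⊤) (X Y : Module.End κ V) :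
    ∃ α β γ : κ, X * Y + Y * X = α • (1 : Module.End κ V) + β • X + γ • Y := by
  have hX : X ∈ Submodule.span κ (Set.range ρ) := hspan ▸ Submodule.mem_top
  have hY : Y ∈ Submodule.span κ (Set.range ρ) := hspan ▸ Submodule.mem_top
  have hP : ∃ β : κ, ∀ h, ∃ γ : κ,
      X * ρ h + ρ h * X = a h • X + β • ρ h + γ • (1 : Module.End κ V) := by
    induction hX using Submodule.span_induction with
    | mem x hx =>
      obtain ⟨g, rfl⟩ := hx
      exact ⟨a g, fun h => ⟨_, anticomm_of_quadratic ρ ε a hq g h⟩⟩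
    | zero => exact ⟨0, fun h => ⟨0, by simp⟩⟩
    | add x y _ _ hx hy =>
      obtain ⟨β₁, h₁⟩ := hx
      obtain ⟨β₂, h₂⟩ := hy
      refine ⟨β₁ + β₂, fun h => ?_⟩
      obtain ⟨γ₁, e₁⟩ := h₁ h
      obtain ⟨γ₂, e₂⟩ := h₂ h
      refine ⟨γ₁ + γ₂, ?_⟩
      rw [add_mul, mul_add, add_add_add_comm, e₁, e₂]
      module
    | smul c x _ hx =>
      obtain ⟨β₁, h₁⟩ := hx
      refine ⟨c * β₁, fun h => ?_⟩
      obtain ⟨γ₁, e₁⟩ := h₁ h
      refine ⟨c * γ₁, ?_⟩
      rw [smul_mul_assoc, mul_smul_comm, ← smul_add, e₁]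
      module
  obtain ⟨β, hβ⟩ := hP
  have hQ : ∃ δ γ : κ, X * Y + Y * X = δ • X + β • Y + γ • (1 : Module.End κ V) := by
    induction hY using Submodule.span_induction with
    | mem y hy =>
      obtain ⟨h, rfl⟩ := hy
      obtain ⟨γ, e⟩ := hβ h
      exact ⟨a h, γ, e⟩
    | zero => exact ⟨0, 0, by simp⟩
    | add x y _ _ hx hy =>
      obtain ⟨δ₁, γ₁, e₁⟩ := hx
      obtain ⟨δ₂, γ₂, e₂⟩ := hy
      refine ⟨δ₁ + δ₂, γ₁ + γ₂, ?_⟩
      rw [mul_add, add_mul, add_add_add_comm, e₁, e₂]
      module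
    | smul c x _ hx =>
      obtain ⟨δ₁, γ₁, e₁⟩ := hx
      refine ⟨c * δ₁, c * γ₁, ?_⟩
      rw [mul_smul_comm, smul_mul_assoc, ← smul_add, e₁]
      module
  obtain ⟨δ, γ, e⟩ := hQ
  exact ⟨γ, δ, β, by rw [e]; module⟩

/-- If `X Y + Y X ∈ span (1, X, Y)` for all endomorphisms of `V`, then `dim V ≤ 2`. -/
theorem finrank_le_two_of_anticomm [FiniteDimensional κ V]
    (h : ∀ X Y : Module.End κ V, ∃ α β γ : κ,
      X * Y + Y * X = α • (1 : Module.End κ V) + β • X + γ • Y) :
    Module.finrank κ V ≤ 2 := by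
  classical
  by_contra hlt
  push Not at hlt
  set n := Module.finrank κ V with hn
  let b : Module.Basis (Fin n) κ V := Module.finBasis κ V
  let i0 : Fin n := ⟨0, by omega⟩
  let i1 : Fin n := ⟨1, by omega⟩
  let i2 : Fin n := ⟨2, by omega⟩
  have h01 : i0 ≠ i1 := by simp [i0, i1, Fin.ext_iff]
  have h02 : i0 ≠ i2 := by simp [i0, i2, Fin.ext_iff]
  have h12 : i1 ≠ i2 := by simp [i1, i2, Fin.ext_iff]
  let X : Module.End κ V := b.constr κ (fun i => if i = i1 then b i0 else 0)
  let Y : Module.End κ V := b.constr κ (fun i => if i = i2 then b i1 else 0)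
  have hX1 : X (b i1) = b i0 := by simp [X, Module.Basis.constr_basis]
  have hX2 : X (b i2) = 0 := by simp [X, Module.Basis.constr_basis, h12.symm]
  have hY2 : Y (b i2) = b i1 := by simp [Y, Module.Basis.constr_basis]
  obtain ⟨α, β, γ, e⟩ := h X Y
  have e2 := congrArg (fun F : Module.End κ V => F (b i2)) e
  simp only [LinearMap.add_apply, Module.End.mul_apply, LinearMap.smul_apply,
    Module.End.one_apply, hY2, hX1, hX2, map_zero, add_zero, smul_zero] at e2
  have e3 := congrArg (fun v => b.repr v i0) e2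
  simp [Finsupp.single_apply, h01, h02, h01.symm, h02.symm] at e3

end Quadratic

section Final

variable {κ : Type*} [Field κ] [IsAlgClosed κ] {G : Type*} [Group G]
  {W : Type*} [AddCommGroup W] [Module κ W]

/-- Dimension bound in the irreducible case over an algebraically closed field. -/
theorem finrank_le_two_of_irr [Module.Finite κ W] [Nontrivial W]
    (ρ : G →* Module.End κ W) (ε : G →* κˣ)
    (hirr : ∀ U : Submodule κ W, (∀ g, ∀ u ∈ U, ρ g u ∈ U) → U = ⊥ ∨ U = ⊤)
    (hquad : ∀ g, ∃ a : κ,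
      ρ g * ρ g - a • ρ g + ((ε g : κˣ) : κ) • (1 : Module.End κ W) = 0) :
    Module.finrank κ W ≤ 2 := by
  choose a ha using hquad
  exact finrank_le_two_of_anticomm
    (anticomm_mem_span ρ ε a ha (burnside ρ hirr))

/-- The restriction of a representation to a stable subspace. -/
noncomputable def restrictRep (ρ : G →* Module.End κ W) (U : Submodule κ W)
    (hU : ∀ g, ∀ u ∈ U, ρ g u ∈ U) : G →* Module.End κ U where
  toFun g := (ρ g).restrict (hU g)
  map_one' := by
    ext u
    simp
  map_mul' g h := by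
    ext u
    simp

theorem restrictRep_apply (ρ : G →* Module.End κ W) (U : Submodule κ W)
    (hU : ∀ g, ∀ u ∈ U, ρ g u ∈ U) (g : G) (u : U) :
    ((restrictRep ρ U hU g u : U) : W) = ρ g (u : W) := rfl

/-- **Lemma (D), algebraically closed form, no irreducibility hypothesis.** -/
theorem exists_rep_two' {κ : Type*} [Field κ] [IsAlgClosed κ] {G : Type*} [Group G]
    {W : Type*} [AddCommGroup W] [Module κ W] [Module.Finite κ W] [Nontrivial W]
    (ρ : G →* Module.End κ W) (ε : G →* κˣ)
    (hquad : ∀ g, ∃ a : κ,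
      ρ g * ρ g - a • ρ g + ((ε g : κˣ) : κ) • (1 : Module.End κ W) = 0) :
    ∃ ρ' : G →* Matrix (Fin 2) (Fin 2) κ,
      (∀ g (a : κ), ρ g * ρ g - a • ρ g + ((ε g : κˣ) : κ) • (1 : Module.End κ W) = 0 →
          (ρ' g).charpoly = X ^ 2 - C a * X + C ((ε g : κˣ) : κ)) ∧
      (∀ g, ρ g = 1 → ε g = 1 → ρ' g = 1) := by
  classical
  -- a minimal nonzero stable subspace
  let P : ℕ → Prop := fun n => ∃ U : Submodule κ W, U ≠ ⊥ ∧ (∀ g, ∀ u ∈ U, ρ g u ∈ U) ∧
    Module.finrank κ U = n
  have hP : ∃ n, P n := ⟨_, ⊤, top_ne_bot, fun _ _ _ => Submodule.mem_top, rfl⟩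
  obtain ⟨U, hU0, hUs, hUn⟩ := Nat.find_spec hP
  have hmin : ∀ U' : Submodule κ W, U' ≠ ⊥ → (∀ g, ∀ u ∈ U', ρ g u ∈ U') →
      Module.finrank κ U ≤ Module.finrank κ U' := fun U' h0 hs =>
    hUn ▸ Nat.find_min' hP ⟨U', h0, hs, rfl⟩
  haveI : Nontrivial U := Submodule.nontrivial_iff_ne_bot.2 hU0
  set ρU := restrictRep ρ U hUs with hρU
  have hrel : ∀ g (a : κ),
      ρ g * ρ g - a • ρ g + ((ε g : κˣ) : κ) • (1 : Module.End κ W) = 0 →
      ρU g * ρU g - a • ρU g + ((ε g : κˣ) : κ) • (1 : Module.End κ U) = 0 := by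
    intro g a h
    ext u
    have h1 := congrArg (fun F : Module.End κ W => F (u : W)) h
    simp only [LinearMap.add_apply, LinearMap.sub_apply, Module.End.mul_apply,
      LinearMap.smul_apply, Module.End.one_apply, LinearMap.zero_apply] at h1
    simp only [LinearMap.add_apply, LinearMap.sub_apply, Module.End.mul_apply,
      LinearMap.smul_apply, Module.End.one_apply, LinearMap.zero_apply, Submodule.coe_add,
      Submodule.coe_sub, Submodule.coe_smul, Submodule.coe_zero, hρU, restrictRep_apply]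
    exact h1
  have hquadU : S29.H3.QuadHyp ρU ε := fun g => by
    obtain ⟨a, ha⟩ := hquad g
    exact ⟨a, hrel g a ha⟩
  have hirrU : S29.H3.IrrHyp ρU := by
    intro U' hU'
    by_cases h0 : U' = ⊥
    · exact Or.inl h0
    right
    have hmap0 : U'.map U.subtype ≠ ⊥ := by
      intro h
      exact h0 (Submodule.map_injective_of_injective U.subtype_injective
        (h.trans (Submodule.map_bot _).symm))
    have hmaps : ∀ g, ∀ u ∈ U'.map U.subtype, ρ g u ∈ U'.map U.subtype := by
      rintro g _ ⟨u, hu, rfl⟩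
      exact ⟨ρU g u, hU' g u hu, rfl⟩
    have h1 := hmin _ hmap0 hmaps
    have h2 : Module.finrank κ (U'.map U.subtype) = Module.finrank κ U' :=
      (Submodule.equivMapOfInjective U.subtype U.subtype_injective U').symm.finrank_eq
    exact Submodule.eq_top_of_finrank_eq (le_antisymm (Submodule.finrank_le U') (h2 ▸ h1))
  have hle : Module.finrank κ U ≤ 2 := finrank_le_two_of_irr ρU ε hirrU hquadU
  have hpos : 0 < Module.finrank κ U := Module.finrank_pos
  have hconc : S29.H3.RepTwoConclusion ρU ε := by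
    have h12 : Module.finrank κ U = 1 ∨ Module.finrank κ U = 2 := by omega
    rcases h12 with h | h
    · exact S29.H3.repTwo_of_finrank_one h
    · exact S29.H3.repTwo_of_finrank_two hquadU hirrU h
  obtain ⟨ρ', h1, h2⟩ := hconc
  refine ⟨ρ', fun g a ha => h1 g a (hrel g a ha), fun g hg hε => h2 g ?_ hε⟩
  ext u
  simp [hρU, restrictRep_apply, hg]

end Final

end Fermat.Agent.S42.H14
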