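import Mathlib
import Fermat.Prelude.Def_GaloisRep_Residual
import Fermat.Prelude.Def_ModularCurve_HeckeModule
import Fermat.Prelude.Def_ModularCurve_PeriodMap
import Fermat.Agent.S16.H75.Gamma0Hecke

/-!
# Program A (S42 / S29): the two interface predicates of the consumer side

* `AJLeaf N p` : the output of the AJ core (an injective Hecke-equivariant additive map from the
  parabolic, torsion-killing homomorphisms `Γ₀(N) → ℤ/p` to the `p`-torsion of `J₀(N)`), in the
  one shape the consumer takes, for every prime `p`.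
* `ModuleStatement N p κ a` : a nonzero finite-dimensional `κ`-representation of
  `Gal(ℚ̄/ℚ)` of finite level on which the Frobenius elements at `ℓ ∤ N p` satisfy
  `σ² - a_ℓ σ + ℓ = 0` and the inertia groups at `ℓ ∤ N p` act trivially.
-/

set_option autoImplicit false

open CongruenceSubgroup ModularCurve ModularCurve.Period
open scoped MatrixGroups

namespace Fermat.Agent.S42.H14

open Fermat.Agent.S16.H75 (heckeHom)

/-- The output of the AJ core, as consumed by the S42 / S29 tops. -/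
def AJLeaf (N p : ℕ) [NeZero N] : Prop :=
  ∃ (H : AddSubgroup (Additive (Gamma0 N) →+ ZMod p)) (AJ : H →+ JZero N),
    (∀ χ : Additive (Gamma0 N) →+ ZMod p, IsParabolicHom (Gamma0 N) χ →
      (∀ γ : Gamma0 N, IsOfFinOrder γ → χ (Additive.ofMul γ) = 0) → χ ∈ H) ∧
    Function.Injective AJ ∧ (∀ χ, p • AJ χ = 0) ∧
    ∀ ℓ : Nat.Primes, ¬ (ℓ : ℕ) ∣ N * p → ∀ (χ : H)
      (h : heckeHom N ℓ (ZMod p) (χ : Additive (Gamma0 N) →+ ZMod p) ∈ H),
      heckeOperatorBar N ℓ (AJ χ) = AJ ⟨heckeHom N ℓ (ZMod p) χ, h⟩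

/-- The Galois module produced from the AJ core and consumed by the tops. -/
def ModuleStatement (N p : ℕ) (κ : Type) [Field κ] (a : ℕ → κ) : Prop :=
  ∃ (W : Type) (_ : AddCommGroup W) (_ : Module κ W)
    (r : (AlgebraicClosure ℚ ≃ₐ[ℚ] AlgebraicClosure ℚ) →* Module.End κ W),
    Nontrivial W ∧ Module.Finite κ W ∧ GaloisFactorsThroughFiniteLevel r ∧
    (∀ ℓ : ℕ, ℓ.Prime → ¬ ℓ ∣ N * p → ∀ A : ValuationSubring (AlgebraicClosure ℚ),
      A.LiesOverPrime ℓ → ∀ σ : AlgebraicClosure ℚ ≃ₐ[ℚ] AlgebraicClosure ℚ,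
        A.IsFrobeniusAt σ ℓ →
          r σ * r σ - a ℓ • r σ + (ℓ : κ) • (1 : Module.End κ W) = 0) ∧
    (∀ ℓ : ℕ, ℓ.Prime → ¬ ℓ ∣ N * p → ∀ A : ValuationSubring (AlgebraicClosure ℚ),
      A.LiesOverPrime ℓ → ∀ σ ∈ A.inertiaSubgroupIn ℚ, r σ = 1)

end Fermat.Agent.S42.H14
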