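import Mathlib
import Fermat.Agent.S29.H54.ModuleStatement
import Fermat.Agent.S29.H97.EigenRes
import Fermat.Agent.S29.H97.ModAbs
import Fermat.Agent.S29.H17.GaloisOrbit
import Fermat.Agent.S29.H60.GaloisHecke
import Fermat.Agent.S37.H77.CoreFree
import Fermat.Agent.S42.H96.Defs
import Fermat.Agent.S42.H4.FinChar

/-!
# Program A, consumer side: MOD-INST (helper14)

From the AJ core (an injective additive map `AJ : Hp N p → J₀(N)` into the `p`-torsion,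
Hecke-equivariant at the primes `ℓ ∤ N`) to the module hypothesis `ModuleHyp N g p 𝔪` of the tops
of S42 / S29 (helper54).

The module is the span of the Galois orbit of `m0 : lam ↦ AJ (lam ∘ ψ)` in
`Hom(Hom(κ, 𝔽_p), J₀(N))`, where `ψ : Γ₀(N) → κ = ℤ̄ ⧸ 𝔪` is the residual eigen-homomorphism of
`g` (helper97, `exists_res_eigenHom_coord`); the abstract construction is helper97's
`exists_module_of_hom`; finiteness of the orbit and the finite level come from helper17's open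
stabilisers; the Frobenius relation and the triviality of inertia from helper77's `core_free`;
Galois/Hecke commutation from helper60.
-/

set_option autoImplicit false
set_option linter.style.haveILetI false

open CongruenceSubgroup ModularCurve ModularCurve.Period
open scoped MatrixGroups

namespace Fermat.Agent.S42.H14

open Fermat.Agent.S16.H75 (heckeHom)
open Fermat.Agent.S42.H96 (Hp)

local notation "Qb" => AlgebraicClosure ℚ
local notation "Zb" => integralClosure ℤ ℂ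

/-- A normal finite level is stable under every automorphism. -/
theorem apply_mem_of_normal (L : IntermediateField ℚ Qb) [Normal ℚ L] (τ : Qb ≃ₐ[ℚ] Qb)
    {a : Qb} (ha : a ∈ L) : τ a ∈ L := by
  have h := AlgEquiv.restrictNormal_commutes τ L ⟨a, ha⟩
  have h2 : τ a = ((τ.restrictNormal L ⟨a, ha⟩ : L) : Qb) := h.symm
  rw [h2]
  exact (τ.restrictNormal L ⟨a, ha⟩).2

/-- **MOD-INST.** -/
theorem moduleHyp_of_AJ {N : ℕ} [NeZero N] {p : ℕ} (hp : p.Prime)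
    (hAJ : ∃ AJ : ↥(Hp N p) →+ JZero N, Function.Injective AJ ∧ (∀ χ, p • AJ χ = 0) ∧
      ∀ (ℓ : Nat.Primes), ¬ (ℓ : ℕ) ∣ N → ∀ (χ : ↥(Hp N p))
        (h : heckeHom N ℓ (ZMod p) (χ : Additive (Gamma0 N) →+ ZMod p) ∈ Hp N p),
        heckeOperatorBar N ℓ (AJ χ) = AJ ⟨heckeHom N ℓ (ZMod p) χ, h⟩)
    (g : CuspForm (Gamma0 N) 2) (hg : g.IsNormalizedEigenform)
    (𝔪 : Ideal Zb) (h𝔪 : 𝔪.IsMaximal) (hp𝔪 : (p : Zb) ∈ 𝔪) :
    Fermat.Agent.S29.H54.ModuleHyp N g p 𝔪 h𝔪 := by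
  classical
  haveI := h𝔪
  haveI : Fact p.Prime := ⟨hp⟩
  haveI : NeZero p := ⟨hp.ne_zero⟩
  letI : Field (Zb ⧸ 𝔪) := @Ideal.Quotient.field _ _ 𝔪 h𝔪
  obtain ⟨ψ, abar, habar, ⟨lam0, hlam0⟩, hcoord⟩ :=
    Fermat.Agent.S29.H97.exists_res_eigenHom_coord p g hg 𝔪 hp𝔪
  obtain ⟨AJ, hinj, htors, hhecke⟩ := hAJ
  have mem : ∀ lam : Zb ⧸ 𝔪 →+ ZMod p, lam.comp ψ ∈ Hp N p :=
    fun lam => ⟨(hcoord lam).1, (hcoord lam).2.1⟩
  -- the element `m0`
  let m0 : ((Zb ⧸ 𝔪) →+ ZMod p) →+ JZero N :=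
    { toFun := fun lam => AJ ⟨lam.comp ψ, mem lam⟩
      map_zero' := by
        have : (⟨(0 : Zb ⧸ 𝔪 →+ ZMod p).comp ψ, mem 0⟩ : ↥(Hp N p)) = 0 :=
          Subtype.ext (AddMonoidHom.zero_comp ψ)
        rw [this, map_zero]
      map_add' := fun a b => by
        have : (⟨(a + b).comp ψ, mem (a + b)⟩ : ↥(Hp N p)) =
            ⟨a.comp ψ, mem a⟩ + ⟨b.comp ψ, mem b⟩ :=
          Subtype.ext (AddMonoidHom.add_comp a b ψ)
        rw [this, map_add] }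
  have hm0_apply : ∀ lam, m0 lam = AJ ⟨lam.comp ψ, mem lam⟩ := fun _ => rfl
  have hm0 : m0 ≠ 0 := by
    intro h
    have h1 : AJ ⟨lam0.comp ψ, mem lam0⟩ = 0 := by
      rw [← hm0_apply, h]; rfl
    have h2 := hinj (h1.trans (map_zero AJ).symm)
    exact hlam0 (congrArg Subtype.val h2)
  have hsmul_nsmul : ∀ (τ : Qb ≃ₐ[ℚ] Qb) (n : ℕ) (x : JZero N), n • (τ • x) = τ • (n • x) :=
    fun τ n x => (map_nsmul (DistribSMul.toAddMonoidHom (JZero N) τ) n x).symm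
  have hm0tors : ∀ (τ : Qb ≃ₐ[ℚ] Qb) lam, ∃ n : ℕ, p ^ n • (τ • m0 lam) = 0 := by
    intro τ lam
    refine ⟨1, ?_⟩
    rw [pow_one, hsmul_nsmul, hm0_apply, htors]
    exact smul_zero (A := JZero N) τ
  -- the Hecke operators at the primes not dividing `N`
  let ι : Type := {ℓ : Nat.Primes // ¬ (ℓ : ℕ) ∣ N}
  let T : ι → JZero N →+ JZero N := fun i => (heckeOperatorBar N i.1).toAddMonoidHom
  have hT_apply : ∀ (i : ι) (x : JZero N), T i x = heckeOperatorBar N i.1 x := fun _ _ => rfl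
  have hT : ∀ (i : ι) (σ : Qb ≃ₐ[ℚ] Qb) (x : JZero N), T i (σ • x) = σ • T i x := by
    intro i σ x
    rw [hT_apply, hT_apply, Fermat.Agent.S29.H60.galois_smul_heckeOperatorBar]
  have heig : ∀ (i : ι) (lam : (Zb ⧸ 𝔪) →+ ZMod p),
      T i (m0 lam) = m0 (lam.comp (AddMonoidHom.mulLeft (abar i.1))) := by
    intro i lam
    have h1 := (hcoord lam).2.2 i.1
    have hmem : heckeHom N i.1 (ZMod p) (lam.comp ψ) ∈ Hp N p := by
      rw [h1]; exact mem _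
    rw [hT_apply, hm0_apply, hhecke i.1 i.2 ⟨lam.comp ψ, mem lam⟩ hmem, hm0_apply]
    congr 1
    exact Subtype.ext h1
  -- a normal finite level fixing the image of `AJ`
  haveI : Finite (Additive (Gamma0 N) →+ ZMod p) := Fermat.Agent.S42.H4.finite_addHom N p
  haveI : Finite ↥(Hp N p) :=
    Finite.of_injective (Subtype.val : ↥(Hp N p) → (Additive (Gamma0 N) →+ ZMod p))
      Subtype.val_injective
  letI : Fintype ↥(Hp N p) := Fintype.ofFinite _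
  obtain ⟨L, hL, hLn, hLfix⟩ := Fermat.Agent.S29.H17.exists_normal_level_fixing_finset N
    (Finset.univ.image AJ)
  have hfix : ∀ σ : Qb ≃ₐ[ℚ] Qb, (∀ a ∈ L, σ a = a) → ∀ lam, σ • m0 lam = m0 lam :=
    fun σ hσ lam => hLfix σ hσ _ (Finset.mem_image_of_mem AJ (Finset.mem_univ _))
  have hfix' : ∀ σ : Qb ≃ₐ[ℚ] Qb, (∀ a ∈ L, σ a = a) →
      ∀ (τ : Qb ≃ₐ[ℚ] Qb) lam, σ • τ • m0 lam = τ • m0 lam := by
    intro σ hσ τ lam
    have h1 : (τ⁻¹ * σ * τ) • m0 lam = m0 lam := by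
      refine hfix _ (fun a ha => ?_) lam
      rw [AlgEquiv.mul_apply, AlgEquiv.mul_apply, hσ _ (apply_mem_of_normal L τ ha)]
      exact τ.symm_apply_apply a
    have h2 := congrArg (τ • ·) h1
    simp only [mul_smul, smul_inv_smul] at h2
    exact h2
  -- finiteness of the orbit
  have hfin : (Set.range fun σ : Qb ≃ₐ[ℚ] Qb => fun lam : (Zb ⧸ 𝔪) →+ ZMod p =>
      σ • m0 lam).Finite := by
    let r : (Qb ≃ₐ[ℚ] Qb) → (L →ₐ[ℚ] Qb) := fun σ => (σ : Qb →ₐ[ℚ] Qb).comp L.val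
    let f : (L →ₐ[ℚ] Qb) → (((Zb ⧸ 𝔪) →+ ZMod p) → JZero N) := fun τ =>
      if hτ : ∃ σ, r σ = τ then fun lam => hτ.choose • m0 lam else 0
    refine (Set.finite_range f).subset ?_
    rintro _ ⟨σ, rfl⟩
    refine ⟨r σ, ?_⟩
    have hex : ∃ σ', r σ' = r σ := ⟨σ, rfl⟩
    show (if hτ : ∃ σ', r σ' = r σ then fun lam => hτ.choose • m0 lam else 0) = _
    rw [dif_pos hex]
    funext lam
    refine Fermat.Agent.S29.H17.smul_eq_smul_of_level N (fun ρ hρ => hfix ρ hρ lam)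
      (fun a ha => ?_)
    have := congrArg (fun φ : L →ₐ[ℚ] Qb => φ ⟨a, ha⟩) hex.choose_spec
    exact this
  obtain ⟨W, iW1, iW2, r, hWnt, hWfin, hker, hrel⟩ :=
    Fermat.Agent.S29.H97.exists_module_of_hom T hT (fun i : ι => abar i.1) m0 hm0 heig hfin
  -- the integral lifts of the eigenvalues
  choose b hb hbabar using habar
  refine ⟨fun ℓ => if h : ℓ.Prime then b ⟨ℓ, h⟩ else 0, fun ℓ hℓ _ => ?_, ?_⟩
  · dsimp only
    rw [dif_pos hℓ]; exact hb ⟨ℓ, hℓ⟩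
  refine ⟨W, iW1, iW2, r, hWnt, hWfin, ⟨L, hL, fun σ hσ => hker σ (hfix' σ hσ)⟩, ?_, ?_⟩
  · intro ℓ hℓ hℓNp A hA σ hσ
    have hℓN : ¬ ((⟨ℓ, hℓ⟩ : Nat.Primes) : ℕ) ∣ N := fun h => hℓNp (Dvd.dvd.mul_right h p)
    have h1 := hrel σ ⟨⟨ℓ, hℓ⟩, hℓN⟩ ℓ (fun τ lam =>
      (Fermat.Agent.S37.H77.core_free N p ℓ hℓ hℓNp A hA (τ • m0 lam) (hm0tors τ lam)).2 σ hσ)
    have h2 : (Ideal.Quotient.mk 𝔪) (if h : ℓ.Prime then b ⟨ℓ, h⟩ else 0) = abar ⟨ℓ, hℓ⟩ := by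
      rw [dif_pos hℓ]; exact (hbabar ⟨ℓ, hℓ⟩).symm
    dsimp only
    rw [h2]
    exact h1
  · intro ℓ hℓ hℓNp A hA σ hσ
    exact hker σ (fun τ lam =>
      (Fermat.Agent.S37.H77.core_free N p ℓ hℓ hℓNp A hA (τ • m0 lam) (hm0tors τ lam)).1 σ hσ)

/-- **MOD-INST, top form**: the hypothesis `TopHyp p` of the tops `s42_of_topHyp`,
`s29_of_topHyp` from the AJ core at all levels. -/
theorem topHyp_of_AJ {p : ℕ} (hp : p.Prime)
    (hAJ : ∀ (N : ℕ) [NeZero N], ∃ AJ : ↥(Hp N p) →+ JZero N,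
      Function.Injective AJ ∧ (∀ χ, p • AJ χ = 0) ∧
      ∀ (ℓ : Nat.Primes), ¬ (ℓ : ℕ) ∣ N → ∀ (χ : ↥(Hp N p))
        (h : heckeHom N ℓ (ZMod p) (χ : Additive (Gamma0 N) →+ ZMod p) ∈ Hp N p),
        heckeOperatorBar N ℓ (AJ χ) = AJ ⟨heckeHom N ℓ (ZMod p) χ, h⟩) :
    Fermat.Agent.S29.H54.TopHyp p :=
  fun N _ g hg 𝔪 h𝔪 hp𝔪 => moduleHyp_of_AJ hp (hAJ N) g hg 𝔪 h𝔪 hp𝔪

/-- The same, from the literal conclusion of `Fermat.Agent.S42.H96.exists_AJ` (which carries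
the defining relation `Rel` as an extra clause). -/
theorem topHyp_of_exists_AJ {p : ℕ} (hp : p.Prime)
    (hAJ : ∀ (N : ℕ) [NeZero N], ∃ AJ : ↥(Hp N p) →+ JZero N,
      Function.Injective AJ ∧ (∀ χ, p • AJ χ = 0) ∧
      (∀ χ : ↥(Hp N p),
        Fermat.Agent.S42.H96.Rel N p (χ : Additive (Gamma0 N) →+ ZMod p) (AJ χ)) ∧
      ∀ (ℓ : Nat.Primes), ¬ (ℓ : ℕ) ∣ N → ∀ (χ : ↥(Hp N p))
        (h : heckeHom N ℓ (ZMod p) (χ : Additive (Gamma0 N) →+ ZMod p) ∈ Hp N p),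
        heckeOperatorBar N ℓ (AJ χ) = AJ ⟨heckeHom N ℓ (ZMod p) χ, h⟩) :
    Fermat.Agent.S29.H54.TopHyp p :=
  topHyp_of_AJ hp fun N _ => by
    obtain ⟨AJ, h1, h2, -, h3⟩ := hAJ N
    exact ⟨AJ, h1, h2, h3⟩

end Fermat.Agent.S42.H14
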